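/-
S52 library (helper9): a nodal Weierstrass cubic with NON-SPLIT tangent directions.

`k` algebraically closed, `2, 3 ≠ 0` in `k`, `W` a Weierstrass curve over `k` with `Δ = 0`,
`c₄ ≠ 0`, and `φ : k →+* k` an endomorphism fixing the coefficients of `W` and the primitive cube
roots of unity, but NOT fixing any square root of `-c₆/c₄` (the tangent directions at the node are
swapped by `φ`).  Then there is a nonsingular point `(x, y)` of exact order `3` with
`φ x = x` and `φ y = negY x y`, i.e. `φ` acts on it by `-1`.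
-/
import Mathlib
import Fermat.Agent.S58lib.Mult.Normal

set_option autoImplicit false

namespace Fermat.Agent.S52lib.NonSplit

open WeierstrassCurve WeierstrassCurve.Affine
open Fermat.Agent.S58lib.Mult Fermat.Agent.S51lib

section field

variable {k : Type*} [Field k] (W : WeierstrassCurve k)

/-- At a singular point `(r, t)`: `c₄ = (b₂ + 12 r)²`. -/
lemma c₄_eq_of_singular {r t : k} (hFy : W.a₃ + r * W.a₁ + 2 * t = 0)
    (hFx : W.a₁ * t - (3 * r ^ 2 + 2 * W.a₂ * r + W.a₄) = 0) :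
    W.c₄ = (W.b₂ + 12 * r) ^ 2 := by
  simp only [c₄, b₂, b₄]
  linear_combination (-24 * W.a₁) * hFy + 48 * hFx

/-- At a singular point `(r, t)`: `c₆ = -(b₂ + 12 r)³`. -/
lemma c₆_eq_of_singular {r t : k} (hFy : W.a₃ + r * W.a₁ + 2 * t = 0)
    (hFx : W.a₁ * t - (3 * r ^ 2 + 2 * W.a₂ * r + W.a₄) = 0)
    (hF : t ^ 2 + W.a₁ * r * t + W.a₃ * t - (r ^ 3 + W.a₂ * r ^ 2 + W.a₄ * r + W.a₆) = 0) :
    W.c₆ = -(W.b₂ + 12 * r) ^ 3 := by
  simp only [c₆, b₂, b₄, b₆]
  linear_combination (36 * (W.a₁ ^ 2 + 4 * W.a₂ + 12 * r) * W.a₁ - 216 * (W.a₃ + r * W.a₁ + 2 * t)) * hFy + (-72 * (W.a₁ ^ 2 + 4 * W.a₂ + 12 * r)) * hFx + 864 * hF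

variable [DecidableEq k]

/-- **Non-split node**: a point of exact order `3` on which `φ` acts by `-1`. -/
theorem exists_order_three_swap [IsAlgClosed k] (h2 : (2 : k) ≠ 0) (h3 : (3 : k) ≠ 0)
    (hΔ : W.Δ = 0) (hc₄ : W.c₄ ≠ 0) (φ : k →+* k) (hφ : W.map φ = W)
    (hns : ∀ u : k, u ^ 2 * W.c₄ = -W.c₆ → φ u ≠ u)
    (hω : ∀ ω : k, ω ^ 2 + ω + 1 = 0 → φ ω = ω) :
    ∃ (x y : k) (h : W.toAffine.Nonsingular x y),
      addOrderOf (Point.some x y h) = 3 ∧ φ x = x ∧ φ y = W.toAffine.negY x y := by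
  obtain ⟨r, t, hFy, hFx, hF, hnode⟩ := exists_singular_point W hΔ hc₄
  -- a tangent direction at the node
  obtain ⟨s, hs⟩ : ∃ s : k, s ^ 2 + W.a₁ * s - (W.a₂ + 3 * r) = 0 := by
    have hdeg : (Polynomial.X ^ 2 + Polynomial.C W.a₁ * Polynomial.X -
        Polynomial.C (W.a₂ + 3 * r) : Polynomial k).degree ≠ 0 := by
      have : (Polynomial.X ^ 2 + Polynomial.C W.a₁ * Polynomial.X -
          Polynomial.C (W.a₂ + 3 * r) : Polynomial k).degree = 2 := by
        compute_degree!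
      rw [this]; norm_num
    obtain ⟨s, hs⟩ := IsAlgClosed.exists_root _ hdeg
    refine ⟨s, ?_⟩
    simpa [Polynomial.IsRoot] using hs
  obtain ⟨u, hu_def⟩ : ∃ u : k, u = W.a₁ + 2 * s := ⟨_, rfl⟩
  have hu2 : u ^ 2 = W.b₂ + 12 * r := by
    rw [hu_def]; simp only [b₂]
    linear_combination 4 * hs
  have hu : u ≠ 0 := by
    intro h0
    rw [h0] at hu2
    exact hnode (by rw [← hu2]; ring)
  have hc4' := c₄_eq_of_singular W hFy hFx
  have hc6' := c₆_eq_of_singular W hFy hFx hF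
  have huc : u ^ 2 * W.c₄ = -W.c₆ := by rw [hc4', hc6', hu2]; ring
  have hφu_ne : φ u ≠ u := hns u huc
  -- `φ` fixes the coefficients
  have e1 : φ W.a₁ = W.a₁ := by
    have := congrArg WeierstrassCurve.a₁ hφ; rwa [map_a₁] at this
  have e3 : φ W.a₃ = W.a₃ := by
    have := congrArg WeierstrassCurve.a₃ hφ; rwa [map_a₃] at this
  have eb2 : φ W.b₂ = W.b₂ := by
    have := congrArg WeierstrassCurve.b₂ hφ; rwa [map_b₂] at this
  have ec4 : φ W.c₄ = W.c₄ := by
    have := congrArg WeierstrassCurve.c₄ hφ; rwa [map_c₄] at this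
  have ec6 : φ W.c₆ = W.c₆ := by
    have := congrArg WeierstrassCurve.c₆ hφ; rwa [map_c₆] at this
  have hφu2 : (φ u) ^ 2 = u ^ 2 := by
    have h1 : φ (u ^ 2 * W.c₄) = φ (-W.c₆) := congrArg φ huc
    rw [map_mul, map_pow, map_neg, ec4, ec6] at h1
    have : ((φ u) ^ 2 - u ^ 2) * W.c₄ = 0 := by linear_combination h1 - huc
    rcases mul_eq_zero.mp this with h | h
    · linear_combination h
    · exact absurd h hc₄
  have hφu : φ u = -u := by
    have : (φ u - u) * (φ u + u) = 0 := by linear_combination hφu2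
    rcases mul_eq_zero.mp this with h | h
    · exact absurd (sub_eq_zero.mp h) hφu_ne
    · linear_combination h
  have h12 : (12 : k) ≠ 0 := by
    have : (12 : k) = 2 * 2 * 3 := by norm_num
    rw [this]
    exact mul_ne_zero (mul_ne_zero h2 h2) h3
  have hφr : φ r = r := by
    have h1 : φ (u ^ 2) = φ (W.b₂ + 12 * r) := congrArg φ hu2
    rw [map_pow, hφu2, map_add, map_mul, eb2, map_ofNat] at h1
    have : 12 * (φ r - r) = 0 := by linear_combination hu2 - h1
    rcases mul_eq_zero.mp this with h | h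
    · exact absurd h h12
    · exact sub_eq_zero.mp h
  have hφt : φ t = t := by
    have h1 : φ (W.a₃ + r * W.a₁ + 2 * t) = φ 0 := congrArg φ hFy
    rw [map_add, map_add, map_mul, map_mul, e1, e3, hφr, map_ofNat, map_zero] at h1
    have : 2 * (φ t - t) = 0 := by linear_combination h1 - hFy
    rcases mul_eq_zero.mp this with h | h
    · exact absurd h h2
    · exact sub_eq_zero.mp h
  have hφs : φ s = -W.a₁ - s := by
    have h1 : φ u = φ (W.a₁ + 2 * s) := congrArg φ hu_def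
    rw [hφu, map_add, map_mul, e1, map_ofNat] at h1
    have : 2 * (φ s - (-W.a₁ - s)) = 0 := by rw [hu_def] at h1; linear_combination -h1
    rcases mul_eq_zero.mp this with h | h
    · exact absurd h h2
    · exact sub_eq_zero.mp h
  -- the change of variables to `y² + xy = x³`
  obtain ⟨C, hCu, hCr, hCs, hCt, hC⟩ : ∃ C : VariableChange k, (C.u : k) = u ∧ C.r = r ∧ C.s = s ∧
      C.t = t ∧ C • W = nodal k := by
    refine ⟨⟨Units.mk0 u hu, r, s, t⟩, rfl, rfl, rfl, rfl, ?_⟩
    have hinv : ((Units.mk0 u hu)⁻¹ : kˣ) = Units.mk0 u⁻¹ (inv_ne_zero hu) := by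
      ext; simp
    ext
    · rw [variableChange_a₁]
      show ((Units.mk0 u hu)⁻¹ : kˣ).val * (W.a₁ + 2 * s) = 1
      rw [hinv, Units.val_mk0, ← hu_def]
      exact inv_mul_cancel₀ hu
    · rw [variableChange_a₂]
      show _ * (W.a₂ - s * W.a₁ + 3 * r - s ^ 2) = 0
      have : W.a₂ - s * W.a₁ + 3 * r - s ^ 2 = 0 := by linear_combination (-1 : k) * hs
      rw [this, mul_zero]
    · rw [variableChange_a₃]
      show _ * (W.a₃ + r * W.a₁ + 2 * t) = 0
      rw [hFy, mul_zero]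
    · rw [variableChange_a₄]
      show _ * (W.a₄ - s * W.a₃ + 2 * r * W.a₂ - (t + r * s) * W.a₁ + 3 * r ^ 2 - 2 * s * t) = 0
      have : W.a₄ - s * W.a₃ + 2 * r * W.a₂ - (t + r * s) * W.a₁ + 3 * r ^ 2 - 2 * s * t = 0 := by
        linear_combination (-1 : k) * hFx - s * hFy
      rw [this, mul_zero]
    · rw [variableChange_a₆]
      show _ * (W.a₆ + r * W.a₄ + r ^ 2 * W.a₂ + r ^ 3 - t * W.a₃ - t ^ 2 - r * t * W.a₁) = 0
      have : W.a₆ + r * W.a₄ + r ^ 2 * W.a₂ + r ^ 3 - t * W.a₃ - t ^ 2 - r * t * W.a₁ = 0 := by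
        linear_combination (-1 : k) * hF
      rw [this, mul_zero]
  -- a primitive cube root of unity
  obtain ⟨ω, hωeq⟩ : ∃ ω : k, ω ^ 2 + ω + 1 = 0 := by
    have hdeg : (Polynomial.X ^ 2 + Polynomial.X + Polynomial.C (1 : k) : Polynomial k).degree ≠ 0 := by
      have : (Polynomial.X ^ 2 + Polynomial.X + Polynomial.C (1 : k) : Polynomial k).degree = 2 := by
        compute_degree!
      rw [this]; norm_num
    obtain ⟨ω, hω'⟩ := IsAlgClosed.exists_root _ hdeg
    refine ⟨ω, ?_⟩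
    simpa [Polynomial.IsRoot] using hω'
  have hω0 : ω ≠ 0 := by
    rintro rfl
    have : (1 : k) = 0 := by linear_combination hωeq
    exact one_ne_zero this
  have hω1 : ω ≠ 1 := by
    rintro rfl
    apply h3
    linear_combination hωeq
  have hω3 : ω ^ 3 = 1 := by linear_combination (ω - 1) * hωeq
  have hφω : φ ω = ω := hω ω hωeq
  -- the point
  have hU1 : ((Units.mk0 ω hω0 : kˣ) : k) ≠ 1 := hω1
  have hord : addOrderOf (gm (Units.mk0 ω hω0)) = 3 := by
    have h1 : orderOf (gmHom (Units.mk0 ω hω0)) = orderOf (Units.mk0 ω hω0) :=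
      orderOf_injective (gmHom (k := k)) gmHom_injective (Units.mk0 ω hω0)
    have h2' : orderOf (Units.mk0 ω hω0) = 3 := by
      have : Fact (Nat.Prime 3) := ⟨Nat.prime_three⟩
      apply orderOf_eq_prime
      · ext; simpa using hω3
      · intro h; exact hω1 (by simpa using congrArg Units.val h)
    rw [h2'] at h1
    rw [← h1]
    exact (orderOf_ofAdd_eq_addOrderOf _).symm
  rw [gm_of_ne_one hU1] at hord
  obtain ⟨hxy', hP⟩ := vcEquiv'_some W C hC (nonsingular_g (Units.mk0 ω hω0).ne_zero hU1)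
  refine ⟨_, _, hxy', ?_, ?_, ?_⟩
  · rw [← hP, AddEquiv.addOrderOf_eq]
    exact hord
  · -- the x-coordinate is fixed
    simp only [vcX, hCu, hCr, Units.val_mk0, gX]
    rw [map_add, map_mul, map_pow, hφu, hφr, map_div₀, map_pow, map_sub, hφω, map_one]
    ring
  · -- the y-coordinate is negated
    simp only [vcX, vcY, hCu, hCr, hCs, hCt, Units.val_mk0, gX, gY, Affine.negY]
    rw [map_add, map_add, map_mul, map_mul, map_mul, map_pow, map_pow, hφu, hφs, hφt, map_div₀,
      map_div₀, map_pow, map_pow, map_sub, hφω, map_one]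
    linear_combination hFy

end field

end Fermat.Agent.S52lib.NonSplit
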