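/-
S52 library (helper9): Frobenius at a prime of NON-SPLIT multiplicative reduction, `r ≡ 1 mod 3`.

`Wz` an integral Weierstrass model with `Δ ≠ 0`, `r` a prime with `r ≡ 1 mod 3`, `r ∣ Δ`,
`r ∤ c₄` and `-c₄c₆` a non-square modulo `r`.  For every valuation subring `A` over `r` of an
algebraically closed field `L ⊇ ℚ` there is a point `P` of exact order `3` on the curve over `L`
such that EVERY Frobenius element at `A` maps `P` to `-P`.
-/
import Mathlib
import Fermat.Agent.S18lib.Gink.Residue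
import Fermat.Agent.S58lib.Red.Hom
import Fermat.Agent.S58lib.Cnt.FrobFixed
import Fermat.Agent.S52lib.NonSplit.Node

set_option autoImplicit false

namespace Fermat.Agent.S52lib.NonSplit

open IsLocalRing WeierstrassCurve WeierstrassCurve.Affine WeierstrassCurve.Affine.Point
open Fermat.Agent.S05lib Fermat.Agent.S41lib.NE Fermat.Agent.S58lib.Red

universe u

variable (Wz : WeierstrassCurve ℤ) {L : Type u} [Field L] [Algebra ℚ L]
variable {A : ValuationSubring L}

/-- **Non-split multiplicative reduction at `r ≡ 1 mod 3`: a point of order `3` negated by every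
Frobenius element.** -/
theorem exists_order_three_frob_neg [DecidableEq L] [IsAlgClosed L] {r : ℕ} (hr : r.Prime)
    (hr3 : r % 3 = 1) (hΔ0 : Wz.Δ ≠ 0) (hΔ : (r : ℤ) ∣ Wz.Δ) (hc₄ : ¬ (r : ℤ) ∣ Wz.c₄)
    (hns : ¬ IsSquare (((-(Wz.c₄ * Wz.c₆) : ℤ)) : ZMod r)) (hA : A.LiesOverPrime r) :
    ∃ P : ((Wz.map (Int.castRingHom ℚ) : WeierstrassCurve ℚ)⁄L).Point,
      addOrderOf P = 3 ∧ ∀ σ : L ≃ₐ[ℚ] L, A.IsFrobeniusAt σ r → σ • P = -P := by
  have : Fact r.Prime := ⟨hr⟩
  have hchar : CharP (ResidueField A) r := charP_residueField hr hA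
  letI : Algebra (ZMod r) (ResidueField A) := ZMod.algebra _ r
  have : IsAlgClosed (ResidueField A) := Fermat.Agent.S18lib.Gink.isAlgClosed_residueField A
  letI : DecidableEq (ResidueField A) := Classical.decEq _
  have hR := redCurve_int Wz (ℓ := r) A
  have hΔb : ((Wz.reductionMod r)⁄(ResidueField A)).Δ = 0 :=
    (reduction_Δ_eq_zero_iff Wz hr hA).mpr hΔ
  have hc₄b : ((Wz.reductionMod r)⁄(ResidueField A)).c₄ ≠ 0 :=
    fun h => hc₄ ((reduction_c₄_eq_zero_iff Wz hr hA).mp h)
  have hr2 : ¬ r ∣ 2 := by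
    intro h
    have := (Nat.prime_dvd_prime_iff_eq hr Nat.prime_two).mp h
    omega
  have hr3' : ¬ r ∣ 3 := by
    intro h
    have := (Nat.prime_dvd_prime_iff_eq hr Nat.prime_three).mp h
    omega
  have h2 : (2 : ResidueField A) ≠ 0 := by
    have : ((2 : ℕ) : ResidueField A) ≠ 0 := by
      rw [Ne, CharP.cast_eq_zero_iff (ResidueField A) r]; exact hr2
    simpa using this
  have h3 : (3 : ResidueField A) ≠ 0 := by
    have : ((3 : ℕ) : ResidueField A) ≠ 0 := by
      rw [Ne, CharP.cast_eq_zero_iff (ResidueField A) r]; exact hr3'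
    simpa using this
  -- the Frobenius endomorphism of the residue field
  obtain ⟨f, hf⟩ : ∃ f : ResidueField A →ₐ[ZMod r] ResidueField A, ∀ x, f x = x ^ r :=
    ⟨FiniteField.frobeniusAlgHom (ZMod r) (ResidueField A), fun x => by
      rw [FiniteField.coe_frobeniusAlgHom, ZMod.card]⟩
  have hφW : ((Wz.reductionMod r)⁄(ResidueField A)).map (f : ResidueField A →+* ResidueField A) =
      (Wz.reductionMod r)⁄(ResidueField A) := by
    show ((Wz.reductionMod r).map (algebraMap (ZMod r) (ResidueField A))).map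
        (f : ResidueField A →+* ResidueField A) = _
    rw [WeierstrassCurve.map_map]
    congr 1
    ext a
    simp
  -- invariants of the reduced curve
  have hc4eq : ((Wz.reductionMod r)⁄(ResidueField A)).c₄ =
      algebraMap (ZMod r) (ResidueField A) ((Wz.c₄ : ℤ) : ZMod r) := by
    show ((Wz.reductionMod r).map (algebraMap (ZMod r) (ResidueField A))).c₄ = _
    rw [WeierstrassCurve.map_c₄, WeierstrassCurve.reductionMod, WeierstrassCurve.map_c₄]
    simp
  have hc6eq : ((Wz.reductionMod r)⁄(ResidueField A)).c₆ =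
      algebraMap (ZMod r) (ResidueField A) ((Wz.c₆ : ℤ) : ZMod r) := by
    show ((Wz.reductionMod r).map (algebraMap (ZMod r) (ResidueField A))).c₆ = _
    rw [WeierstrassCurve.map_c₆, WeierstrassCurve.reductionMod, WeierstrassCurve.map_c₆]
    simp
  have hns' : ∀ u : ResidueField A, u ^ 2 * ((Wz.reductionMod r)⁄(ResidueField A)).c₄ =
      -((Wz.reductionMod r)⁄(ResidueField A)).c₆ →
      (f : ResidueField A →+* ResidueField A) u ≠ u := by
    intro u hu hfu
    have hfu' : u ^ r = u := by rw [← hf]; exact hfu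
    obtain ⟨a, rfl⟩ := Fermat.Agent.S58lib.Cnt.mem_range_algebraMap_of_pow_eq hfu'
    apply hns
    rw [hc4eq, hc6eq] at hu
    obtain ⟨c4, hc4def⟩ : ∃ c4 : ZMod r, c4 = ((Wz.c₄ : ℤ) : ZMod r) := ⟨_, rfl⟩
    obtain ⟨c6, hc6def⟩ : ∃ c6 : ZMod r, c6 = ((Wz.c₆ : ℤ) : ZMod r) := ⟨_, rfl⟩
    rw [← hc4def, ← hc6def] at hu
    rw [Int.cast_neg, Int.cast_mul, ← hc4def, ← hc6def]
    refine ⟨a * c4, ?_⟩
    apply (algebraMap (ZMod r) (ResidueField A)).injective
    simp only [map_neg, map_mul]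
    linear_combination (-(algebraMap (ZMod r) (ResidueField A)) c4) * hu
  have hω' : ∀ ω : ResidueField A, ω ^ 2 + ω + 1 = 0 →
      (f : ResidueField A →+* ResidueField A) ω = ω := by
    intro ω hω
    have hω3 : ω ^ 3 = 1 := by linear_combination (ω - 1) * hω
    show f ω = ω
    rw [hf]
    have hrr : r = 3 * (r / 3) + 1 := by omega
    rw [hrr, pow_succ, pow_mul, hω3, one_pow, one_mul]
  obtain ⟨x, y, h, hord, hx, hy⟩ := exists_order_three_swap
    ((Wz.reductionMod r)⁄(ResidueField A)) h2 h3 hΔb hc₄b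
    (f : ResidueField A →+* ResidueField A) hφW hns' hω'
  -- lift the point
  have hv3 : A.valuation ((3 : ℕ) : L) = 1 := val_natCast_eq_one_of_not_dvd hr hA hr3'
  have hPb3 : (2 * 1 + 1) • (Point.some x y h) = 0 := by
    have : (2 * 1 + 1 : ℕ) = 3 := by norm_num
    rw [this, ← hord]; exact addOrderOf_nsmul_eq_zero _
  have hΔL : ((Wz.map (Int.castRingHom ℚ) : WeierstrassCurve ℚ)⁄L).Δ ≠ 0 := by
    rw [(baseChange_int_coeffs Wz (K := L)).2.2.2.2.2]
    have : CharZero L := algebraRat.charZero L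
    exact Int.cast_ne_zero.mpr hΔ0
  obtain ⟨P, hP3, hP⟩ := exists_redPt_lift hR hΔL 1 (by simpa using hv3) hPb3
  have hP3' : 3 • P = 0 := by simpa using hP3
  refine ⟨P, ?_, ?_⟩
  · -- exact order
    apply Nat.dvd_antisymm
    · exact addOrderOf_dvd_of_nsmul_eq_zero hP3'
    · rw [← hord]
      apply addOrderOf_dvd_of_nsmul_eq_zero
      have h1 := RedPt.nsmul hR hv3 hP hP3' (addOrderOf P)
      rw [addOrderOf_nsmul_eq_zero] at h1
      exact (h1.eq_zero_iff).mp rfl
  · intro σ hσ
    have h1 : RedPt A (σ • P) (Point.map f (Point.some x y h)) := hP.frob hσ f hf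
    have h2' : Point.map f (Point.some x y h) = -(Point.some x y h) := by
      rw [Point.map_some, Point.neg_some]
      have e1 : f x = x := hx
      have e2 : f y = ((Wz.reductionMod r)⁄(ResidueField A)).toAffine.negY x y := hy
      simp only [e1, e2]
    rw [h2'] at h1
    refine RedPt.inj hR hv3 h1 (RedPt.neg hR hP) ?_ ?_
    · rw [algEquiv_smul_def, ← map_nsmul, hP3', _root_.map_zero]
    · rw [smul_neg, hP3', _root_.neg_zero]

end Fermat.Agent.S52lib.NonSplit
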